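import Fermat.Agent.S52.CH.Defs

/-!
# S52, chapter CH, task BASE: the representations of `0`, `id`, `-α`, Frobenius.
-/

set_option autoImplicit false
set_option linter.unusedSectionVars false

namespace Fermat.Agent.S52.CH

open Polynomial WeierstrassCurve Fermat.Agent.S05

section

variable {k : Type*} [Field k] [DecidableEq k] {W : Affine k}

theorem xrep_zero : XRep (fun _ : W.Point => (0 : W.Point)) 1 0 := by
  refine ⟨isCoprime_one_left, by simp, ?_⟩
  filter_upwards with x y h
  simp

theorem xrep_id : XRep (fun P : W.Point => P) X 1 := by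
  refine ⟨isCoprime_one_right, by simp, ?_⟩
  filter_upwards with x y h
  simp

theorem XRep.neg {α : W.Point → W.Point} {n d : k[X]} (h : XRep α n d) :
    XRep (fun P => - α P) n d := by
  refine ⟨h.coprime, h.deg, ?_⟩
  filter_upwards [h.rel] with x hx y hy
  simpa using hx y hy

end

theorem xrep_frob (ℓ : ℕ) [Fact ℓ.Prime] (a b : ZMod ℓ) :
    XRep (fun P => frobS ℓ a b P) (X ^ ℓ) 1 := by
  have hprime : ℓ.Prime := Fact.out
  refine ⟨isCoprime_one_right, ?_, ?_⟩
  · rw [degree_one, degree_X_pow]
    exact_mod_cast hprime.pos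
  · filter_upwards with x y h
    simp [frobS, frobenius_def]

/-- every abscissa carries a (nonsingular) point. -/
theorem exists_nonsingular_short {k : Type*} [Field k] [IsAlgClosed k] {A B : k}
    (hΔ : 4 * A ^ 3 + 27 * B ^ 2 ≠ 0) (h2 : (2 : k) ≠ 0) (x : k) :
    ∃ y, (shortW A B).toAffine.Nonsingular x y := by
  obtain ⟨y, hy⟩ := IsAlgClosed.exists_pow_nat_eq (x ^ 3 + A * x + B) (n := 2) (by norm_num)
  refine ⟨y, ?_⟩
  rw [nonsingular_short]
  refine ⟨hy, ?_⟩
  by_contra hcon
  push Not at hcon
  obtain ⟨h3, h4⟩ := hcon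
  have hy0 : y = 0 := by
    rcases mul_eq_zero.mp h4 with h | h
    · exact absurd h h2
    · exact h
  rw [hy0] at hy
  apply hΔ
  have hA : A = -3 * x ^ 2 := by linear_combination h3
  have hB : B = 2 * x ^ 3 := by
    have : x ^ 3 + A * x + B = 0 := by rw [← hy]; ring
    rw [hA] at this
    linear_combination this
  rw [hA, hB]
  ring

end Fermat.Agent.S52.CH
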