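import Fermat.Agent.S52.CH.Defs

/-!
# S52, chapter CH, task ZERO: a homomorphism of degree `0` is zero.
-/

set_option autoImplicit false
set_option linter.unusedSectionVars false

namespace Fermat.Agent.S52.CH

open Polynomial WeierstrassCurve Fermat.Agent.S05

variable {k : Type*} [Field k] [DecidableEq k] {W : Affine k}

theorem zero_eq_or_eq_neg {x y y' : k} (h : W.Nonsingular x y) (h' : W.Nonsingular x y') :
    (Affine.Point.some x y h : W.Point) = .some x y' h' ∨
      (Affine.Point.some x y h : W.Point) = - .some x y' h' := by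
  rcases Affine.Y_eq_of_X_eq h.1 h'.1 rfl with e | e
  · left; subst e; rfl
  · right
    rw [Affine.Point.neg_some]
    subst e; rfl

/-- TASK ZERO.  `natDegree n = 0`, `deg d < deg n` force `d = 0`, `n` a nonzero constant, so
`pZ (α P) = 0`, i.e. `α P = 0`, for all `P = (x, y)` with `x` outside a finite set `B`.
Then for every `P₀` there is `Q` such that the abscissas of `Q` and of `P₀ + Q` avoid `B`. -/
theorem eq_zero_of_hasDeg_zero [Infinite k] (hpt : ∀ x : k, ∃ y, W.Nonsingular x y)
    (α : W.Point →+ W.Point) (h : HasDeg (fun P => α P) 0) : α = 0 := by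
  obtain ⟨n, d, hr, hn⟩ := h
  have hn0 := hr.ne_zero
  have hd : d = 0 := by
    have h1 := hr.deg
    rw [degree_eq_natDegree hn0, hn] at h1
    rw [← degree_eq_bot]
    exact Nat.WithBot.lt_zero_iff.mp h1
  obtain ⟨c, hc⟩ := natDegree_eq_zero.mp hn
  have hc0 : c ≠ 0 := by
    rintro rfl
    apply hn0
    rw [← hc, C_0]
  have hB : ∀ᶠ x in Filter.cofinite, ∀ (y : k) (h : W.Nonsingular x y), α (.some x y h) = 0 := by
    filter_upwards [hr.rel] with x hx y h
    have := hx y h
    rw [hd, ← hc, eval_zero, mul_zero, eval_C] at this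
    rw [← pZ_eq_zero_iff]
    exact (mul_eq_zero.mp this.symm).resolve_right hc0
  set B : Set k := {x | ¬ ∀ (y : k) (h : W.Nonsingular x y), α (.some x y h) = 0} with hBdef
  have hBfin : B.Finite := hB
  choose Y hY using hpt
  ext P₀
  rw [AddMonoidHom.zero_apply]
  have hbad : (B ∪ (fun x' => pX ((.some x' (Y x') (hY x') : W.Point) - P₀)) '' B ∪
      (fun x' => pX (-(.some x' (Y x') (hY x') : W.Point) - P₀)) '' B).Finite :=
    (hBfin.union (hBfin.image _)).union (hBfin.image _)
  obtain ⟨x, hx⟩ := hbad.infinite_compl.nonempty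
  simp only [Set.mem_compl_iff, Set.mem_union, Set.mem_image, not_or, not_exists, not_and] at hx
  obtain ⟨⟨hx1, hx2⟩, hx3⟩ := hx
  have hQ : α (.some x (Y x) (hY x)) = 0 := by
    by_contra hcon
    exact hx1 (fun hall => hcon (hall _ _))
  have hR : α (P₀ + .some x (Y x) (hY x)) = 0 := by
    rcases hP : P₀ + .some x (Y x) (hY x) with _ | ⟨x', y', h'⟩
    · rw [hP]; exact map_zero α
    · by_contra hcon
      have hx' : x' ∈ B := fun hall => hcon (by rw [hP]; exact hall _ _)
      rcases zero_eq_or_eq_neg h' (hY x') with e | e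
      · apply hx2 x' hx'
        rw [← e, ← hP]
        simp
      · apply hx3 x' hx'
        rw [← e, ← hP]
        simp
  rw [map_add, hQ, add_zero] at hR
  exact hR

end Fermat.Agent.S52.CH
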