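import Fermat.Agent.S52.CH.Hom

/-!
# S52, chapter CH, task COMP: the degree is multiplicative.
-/

set_option autoImplicit false
set_option linter.unusedSectionVars false

namespace Fermat.Agent.S52.CH

open Polynomial WeierstrassCurve Fermat.Agent.S05

variable {k : Type*} [Field k] [DecidableEq k] {W : Affine k}

theorem comp_ne_zero_sub {n₂ d₂ : k[X]} (hdeg : d₂.degree < n₂.degree) (c : k) :
    n₂ - C c * d₂ ≠ 0 := by
  intro h
  have h1 : n₂ = C c * d₂ := sub_eq_zero.mp h
  have h2 : n₂.degree ≤ d₂.degree := by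
    rw [h1]
    refine (degree_mul_le _ _).trans ?_
    calc (C c).degree + d₂.degree ≤ 0 + d₂.degree := by gcongr; exact degree_C_le
      _ = d₂.degree := zero_add _
  exact absurd hdeg (not_lt.mpr h2)

theorem comp_finite_preimage {n₂ d₂ : k[X]} (hdeg : d₂.degree < n₂.degree) {B : Set k}
    (hB : B.Finite) : {x : k | d₂.eval x ≠ 0 ∧ n₂.eval x / d₂.eval x ∈ B}.Finite := by
  have h1 : (⋃ c ∈ B, {x : k | (n₂ - C c * d₂).eval x = 0}).Finite := by
    refine hB.biUnion fun c _ => ?_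
    have hne := comp_ne_zero_sub hdeg c
    refine ((n₂ - C c * d₂).roots.toFinset.finite_toSet).subset ?_
    intro x hx
    simp only [Finset.mem_coe, Multiset.mem_toFinset, mem_roots hne]
    exact hx
  refine h1.subset ?_
  rintro x ⟨hx1, hx2⟩
  simp only [Set.mem_iUnion]
  refine ⟨_, hx2, ?_⟩
  simp only [Set.mem_ofPred_eq, eval_sub, eval_mul, eval_C]
  field_simp
  ring

/-- TASK COMP.  `n := hom D n₁ n₂ d₂`, `d := hom D d₁ n₂ d₂`, `D = natDegree n₁`.
* degrees: `degree_hom_eq`, `degree_hom_lt`.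
* coprime: `Polynomial.isCoprime_iff_aeval_ne_zero_of_isAlgClosed (k := k) k`; at a point `x` with
  `d₂(x) ≠ 0` use `eval_hom_of_ne` and `h₁.eval_ne_zero (n₂(x)/d₂(x))`; if `d₂(x) = 0` then
  `n(x) = lc(n₁) n₂(x)^D ≠ 0` (`eval_hom_of_eq`, `h₂.eval_ne_zero x`).
* relation: let `B` be the finite exceptional set of `h₁.rel`.  Exclude the exceptional set of
  `h₂.rel` and the `x` with `d₂(x) ≠ 0`, `n₂(x)/d₂(x) ∈ B` (roots of the nonzero polynomials
  `n₂ - C c * d₂`, `c ∈ B`).  For `P = (x, y)`: if `β P = 0` then `d₂(x) = 0`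
  (`h₂.rel`: `1 * d₂(x) = 0 * n₂(x)`), `α (β P) = 0` and `d(x) = coeff d₁ D * _ = 0`;
  if `β P = (x', y')` then `x' d₂(x) = n₂(x)`, `d₂(x) ≠ 0` (else `n₂(x) = 0` too),
  `x' = n₂(x)/d₂(x) ∉ B`; multiply `h₁.rel` at `x'` by `d₂(x)^D`. -/
theorem XRep.comp [IsAlgClosed k] {α β : W.Point → W.Point} (hα : α 0 = 0)
    {n₁ d₁ n₂ d₂ : k[X]} (h₁ : XRep α n₁ d₁) (h₂ : XRep β n₂ d₂) :
    ∃ n d : k[X], XRep (fun P => α (β P)) n d ∧ n.natDegree = n₁.natDegree * n₂.natDegree := by
  set D := n₁.natDegree with hD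
  have hn₁ : n₁ ≠ 0 := h₁.ne_zero
  have hn₂ : n₂ ≠ 0 := h₂.ne_zero
  have hdegn : n₁.degree = (D : WithBot ℕ) := degree_eq_natDegree hn₁
  have hdegd : d₁.degree < (D : WithBot ℕ) := hdegn ▸ h₁.deg
  have hN := degree_hom_eq (D := D) (p := n₁) h₂.deg hdegn
  have hDd := degree_hom_lt (D := D) (p := d₁) h₂.deg hdegd
  have hd₁D : d₁.natDegree ≤ D := by
    rcases eq_or_ne d₁ 0 with rfl | h0
    · simp
    · exact (natDegree_lt_natDegree h0 h₁.deg).le
  have hcoeff : d₁.coeff D = 0 := coeff_eq_zero_of_degree_lt hdegd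
  have hlc : n₁.coeff D ≠ 0 := leadingCoeff_ne_zero.2 hn₁
  refine ⟨hom D n₁ n₂ d₂, hom D d₁ n₂ d₂, ⟨?_, ?_, ?_⟩, ?_⟩
  · -- coprime
    rw [Polynomial.isCoprime_iff_aeval_ne_zero_of_isAlgClosed (k := k) k]
    intro x
    simp only [coe_aeval_eq_eval]
    by_cases hx : d₂.eval x = 0
    · left
      rw [eval_hom_of_eq hx]
      have h2 : n₂.eval x ≠ 0 := (h₂.eval_ne_zero x).resolve_right (not_not.mpr hx)
      exact mul_ne_zero hlc (pow_ne_zero _ h2)
    · rw [eval_hom_of_ne le_rfl hx, eval_hom_of_ne hd₁D hx]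
      rcases h₁.eval_ne_zero (n₂.eval x / d₂.eval x) with h | h
      · exact Or.inl (mul_ne_zero (pow_ne_zero _ hx) h)
      · exact Or.inr (mul_ne_zero (pow_ne_zero _ hx) h)
  · rw [hN]; exact hDd
  · -- relation
    have hB : {x' : k | ¬ ∀ (y : k) (h : W.Nonsingular x' y),
        pX (α (.some x' y h)) * d₁.eval x' = pZ (α (.some x' y h)) * n₁.eval x'}.Finite := h₁.rel
    have hB' := comp_finite_preimage h₂.deg hB
    have hB'' : ∀ᶠ x in Filter.cofinite, ¬ (d₂.eval x ≠ 0 ∧ n₂.eval x / d₂.eval x ∈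
        {x' : k | ¬ ∀ (y : k) (h : W.Nonsingular x' y),
        pX (α (.some x' y h)) * d₁.eval x' = pZ (α (.some x' y h)) * n₁.eval x'}) := by
      rw [Filter.eventually_cofinite]
      simpa using hB'
    filter_upwards [h₂.rel, hB''] with x hx2 hxB y h
    have hrel := hx2 y h
    show pX (α (β (.some x y h))) * _ = pZ (α (β (.some x y h))) * _
    generalize β (.some x y h) = Q at hrel
    cases Q with
    | zero =>
      have hd : d₂.eval x = 0 := by
        have e1 : pX (Affine.Point.zero : W.Point) = 1 := rfl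
        have e2 : pZ (Affine.Point.zero : W.Point) = 0 := rfl
        rw [e1, e2, one_mul, zero_mul] at hrel
        exact hrel
      have h0 : α Affine.Point.zero = 0 := hα
      rw [h0, eval_hom_of_eq hd, hcoeff]
      simp
    | some x' y' h' =>
      have hrel' : x' * d₂.eval x = n₂.eval x := by simpa using hrel
      have hd : d₂.eval x ≠ 0 := by
        intro hd
        rw [hd, mul_zero] at hrel'
        rcases h₂.eval_ne_zero x with h3 | h3
        · exact h3 hrel'.symm
        · exact h3 hd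
      have hx' : n₂.eval x / d₂.eval x = x' := by
        rw [← hrel']; field_simp
      have hnB : ∀ (y : k) (h : W.Nonsingular x' y),
          pX (α (.some x' y h)) * d₁.eval x' = pZ (α (.some x' y h)) * n₁.eval x' := by
        by_contra hcon
        exact hxB ⟨hd, by rw [hx']; exact hcon⟩
      rw [eval_hom_of_ne le_rfl hd, eval_hom_of_ne hd₁D hd, hx']
      have := hnB y' h'
      calc _ = d₂.eval x ^ D * (pX (α (.some x' y' h')) * d₁.eval x') := by ring
        _ = d₂.eval x ^ D * (pZ (α (.some x' y' h')) * n₁.eval x') := by rw [this]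
        _ = _ := by ring
  · exact natDegree_eq_of_degree_eq_some hN

end Fermat.Agent.S52.CH
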