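import Mathlib

/-!
# S52, chapter CH: the abstract endgame.

`H α D` : "`α` has degree `D`".  From the parallelogram law (with existence of the degree of the
sum given the degrees of the two terms and of the difference), multiplicativity,
`H φ q`, `H (φ - 1) N` we get `2 (φ² - (q + 1 - N) φ + q) = 0`.
-/

set_option autoImplicit false

namespace Fermat.Agent.S52.CH

variable {R : Type*} [Ring R] (H : R → ℕ → Prop)

theorem ladder_seq
    (hladder : ∀ α β D₁ D₂ D₃, H α D₁ → H β D₂ → H (α - β) D₃ →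
      ∃ D₄, H (α + β) D₄ ∧ D₄ + D₃ = 2 * (D₁ + D₂))
    (θ ε : R) (e D0 D1 : ℕ) (hε : H ε e) (h0 : H θ D0) (h1 : H (θ + ε) D1) (j : ℕ) :
    (∃ D, H (θ + (j : ℤ) • ε) D ∧
      (D : ℤ) = D0 + j * ((D1 : ℤ) - D0 - e) + (j : ℤ) ^ 2 * e) ∧
    (∃ D, H (θ + ((j : ℤ) + 1) • ε) D ∧
      (D : ℤ) = D0 + ((j : ℤ) + 1) * ((D1 : ℤ) - D0 - e) + ((j : ℤ) + 1) ^ 2 * e) := by
  induction j with
  | zero =>
    refine ⟨⟨D0, by simpa using h0, by simp⟩, ⟨D1, by simpa using h1, by simp; ring⟩⟩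
  | succ j ih =>
    obtain ⟨⟨Da, ha, ea⟩, ⟨Db, hb, eb⟩⟩ := ih
    refine ⟨⟨Db, by push_cast; exact hb, by push_cast; exact eb⟩, ?_⟩
    have hsub : θ + ((j : ℤ) + 1) • ε - ε = θ + (j : ℤ) • ε := by module
    obtain ⟨D₄, h₄, e₄⟩ := hladder (θ + ((j : ℤ) + 1) • ε) ε Db e Da hb hε (by rw [hsub]; exact ha)
    have hadd : θ + ((j : ℤ) + 1) • ε + ε = θ + (((j + 1 : ℕ) : ℤ) + 1) • ε := by
      push_cast; module
    refine ⟨D₄, by rw [← hadd]; exact h₄, ?_⟩
    have e₄' : (D₄ : ℤ) + Da = 2 * (Db + e) := by exact_mod_cast e₄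
    push_cast
    linear_combination e₄' - ea + 2 * eb

theorem endgame
    (hneg : ∀ α D, H α D → H (-α) D)
    (hladder : ∀ α β D₁ D₂ D₃, H α D₁ → H β D₂ → H (α - β) D₃ →
      ∃ D₄, H (α + β) D₄ ∧ D₄ + D₃ = 2 * (D₁ + D₂))
    (hcomp : ∀ α β D D', H α D → H β D' → H (α * β) (D * D'))
    (hzero : ∀ α, H α 0 → α = 0)
    (h0 : H 0 0) (h1 : H 1 1) (φ : R) (q N : ℕ) (hq : Odd q) (hφ : H φ q) (hφ1 : H (φ - 1) N) :
    (2 : ℤ) • (φ * φ - ((q : ℤ) + 1 - (N : ℤ)) • φ + (q : ℤ) • (1 : R)) = 0 := by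
  set a : ℤ := (q : ℤ) + 1 - (N : ℤ) with ha
  -- degrees of `φ - m`
  have hA : ∀ m : ℤ, ∃ D, H (φ - m • (1 : R)) D ∧ (D : ℤ) = m ^ 2 - a * m + q := by
    intro m
    rcases le_total 0 m with hm | hm
    · obtain ⟨j, rfl⟩ := Int.eq_ofNat_of_zero_le hm
      obtain ⟨⟨D, hD, eD⟩, -⟩ := ladder_seq H hladder φ (-1) 1 q N (hneg 1 1 h1) hφ
        (by rw [← sub_eq_add_neg]; exact hφ1) j
      refine ⟨D, ?_, ?_⟩
      · have : φ - (j : ℤ) • (1 : R) = φ + (j : ℤ) • (-1 : R) := by module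
        rw [this]; exact hD
      · rw [eD, ha]; push_cast; ring
    · obtain ⟨j, hj⟩ := Int.eq_ofNat_of_zero_le (neg_nonneg.mpr hm)
      obtain ⟨-, ⟨D, hD, eD⟩⟩ := ladder_seq H hladder (φ - 1) 1 1 N q h1 hφ1
        (by rw [sub_add_cancel]; exact hφ) j
      have hm' : m = -(j : ℤ) := by omega
      refine ⟨D, ?_, ?_⟩
      · have : φ - m • (1 : R) = φ - 1 + ((j : ℤ) + 1) • (1 : R) := by rw [hm']; module
        rw [this]; exact hD
      · rw [eD, ha, hm']; push_cast; ring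
  -- degrees of the products
  have hB : ∀ m : ℤ, ∃ D : ℕ, (D : ℤ) = m ^ 2 - a * m + q ∧
      H (φ * φ - a • φ + (m * (a - m)) • (1 : R)) (D * D) := by
    intro m
    obtain ⟨D, hD, eD⟩ := hA m
    obtain ⟨D', hD', eD'⟩ := hA (a - m)
    have hDD : D' = D := by
      have : (D' : ℤ) = D := by rw [eD, eD']; ring
      exact_mod_cast this
    subst hDD
    refine ⟨D', eD, ?_⟩
    have := hcomp _ _ _ _ hD hD'
    have e : (φ - m • (1 : R)) * (φ - (a - m) • (1 : R))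
        = φ * φ - a • φ + (m * (a - m)) • (1 : R) := by
      simp only [sub_mul, mul_sub, smul_mul_assoc, mul_smul_comm, one_mul, mul_one]
      module
    rw [e] at this
    exact this
  rcases Int.even_or_odd' a with ⟨t, ht | ht⟩
  · -- `a = 2 t`
    obtain ⟨c, ec, hc⟩ := hB (t - 1)
    obtain ⟨c', ec', hc'⟩ := hB t
    obtain ⟨⟨D, hD, eD⟩, -⟩ := ladder_seq H hladder
      (φ * φ - a • φ + ((t - 1) * (a - (t - 1))) • (1 : R)) 1 1 (c * c) (c' * c') h1 hc
      (by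
        have : φ * φ - a • φ + ((t - 1) * (a - (t - 1))) • (1 : R) + 1
            = φ * φ - a • φ + (t * (a - t)) • (1 : R) := by
          rw [ht]
          have : (t * (2 * t - t) : ℤ) = (t - 1) * (2 * t - (t - 1)) + 1 := by ring
          rw [this]
          module
        rw [this]; exact hc') c
    have hcc : (c' : ℤ) = c - 1 := by rw [ec, ec', ht]; ring
    have hD0 : D = 0 := by
      have : (D : ℤ) = 0 := by
        rw [eD]; push_cast; rw [hcc]; ring
      exact_mod_cast this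
    rw [hD0] at hD
    have h := hzero _ hD
    have e : φ * φ - a • φ + (q : ℤ) • (1 : R)
        = φ * φ - a • φ + ((t - 1) * (a - (t - 1))) • (1 : R) + (c : ℤ) • (1 : R) := by
      rw [ec, ht]
      have : (q : ℤ) = (t - 1) * (2 * t - (t - 1)) + ((t - 1) ^ 2 - 2 * t * (t - 1) + q) := by ring
      nth_rewrite 1 [this]
      module
    rw [e, h, smul_zero]
  · -- `a = 2 t + 1`
    obtain ⟨c, ec, hc⟩ := hB (t - 1)
    obtain ⟨c', ec', hc'⟩ := hB t
    obtain ⟨D2, h2, e2⟩ := hladder 1 1 1 1 0 h1 h1 (by rw [sub_self]; exact h0)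
    have hD2 : D2 = 4 := by omega
    subst hD2
    have hcc : (c' : ℤ) = c - 2 := by rw [ec, ec', ht]; ring
    -- `c` is odd
    obtain ⟨r, hr⟩ := hq
    have hodd : ∃ j0 : ℕ, c = 2 * j0 + 1 := by
      have h1 : (c : ℤ) % 2 = 1 := by
        rw [ec, ht, hr]
        push_cast
        have : (t - 1) ^ 2 - (2 * t + 1) * (t - 1) + (2 * (r : ℤ) + 1)
            = 2 * (r + 1 - t) - t * (t - 1) + 1 := by ring
        rw [this]
        obtain ⟨s, hs⟩ := Int.even_mul_pred_self t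
        rw [hs]
        omega
      exact ⟨c / 2, by omega⟩
    obtain ⟨j0, hj0⟩ := hodd
    obtain ⟨⟨Da, hDa, eDa⟩, ⟨Db, hDb, eDb⟩⟩ := ladder_seq H hladder
      (φ * φ - a • φ + ((t - 1) * (a - (t - 1))) • (1 : R)) (1 + 1) 4 (c * c) (c' * c') h2 hc
      (by
        have : φ * φ - a • φ + ((t - 1) * (a - (t - 1))) • (1 : R) + (1 + 1)
            = φ * φ - a • φ + (t * (a - t)) • (1 : R) := by
          rw [ht]
          have : (t * (2 * t + 1 - t) : ℤ) = (t - 1) * (2 * t + 1 - (t - 1)) + 2 := by ring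
          rw [this]
          module
        rw [this]; exact hc') j0
    have hDa1 : Da = 1 := by
      have : (Da : ℤ) = 1 := by
        rw [eDa]; push_cast; rw [hcc, hj0]; push_cast; ring
      exact_mod_cast this
    have hDb1 : Db = 1 := by
      have : (Db : ℤ) = 1 := by
        rw [eDb]; push_cast; rw [hcc, hj0]; push_cast; ring
      exact_mod_cast this
    subst hDa1 hDb1
    set ρ : R := φ * φ - a • φ + (q : ℤ) • (1 : R) with hρ
    have hq' : (q : ℤ) = (t - 1) * (a - (t - 1)) + (2 * j0 + 1) := by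
      have : (c : ℤ) = 2 * j0 + 1 := by exact_mod_cast hj0
      rw [← this, ec, ht]; ring
    have ea : φ * φ - a • φ + ((t - 1) * (a - (t - 1))) • (1 : R) + (j0 : ℤ) • (1 + 1 : R)
        = ρ - 1 := by
      rw [hρ, hq']; module
    have eb : φ * φ - a • φ + ((t - 1) * (a - (t - 1))) • (1 : R) + ((j0 : ℤ) + 1) • (1 + 1 : R)
        = ρ + 1 := by
      rw [hρ, hq']; module
    rw [ea] at hDa
    rw [eb] at hDb
    obtain ⟨D, hD, eD⟩ := hladder (ρ + 1) (ρ - 1) 1 1 4 hDb hDa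
      (by
        have : ρ + 1 - (ρ - 1) = 1 + 1 := by abel
        rw [this]; exact h2)
    have hD0 : D = 0 := by omega
    rw [hD0] at hD
    have h := hzero _ hD
    have : (2 : ℤ) • ρ = ρ + 1 + (ρ - 1) := by module
    rw [this, h]

end Fermat.Agent.S52.CH
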