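import Fermat.Agent.S52.CH.FrobDefs

/-!
# S52, chapter CH, task FR-Count: `#E(𝔽_ℓ) = 1 + #Z0 + 2 #Zp`.
-/

set_option autoImplicit false
set_option linter.unusedSectionVars false

namespace Fermat.Agent.S52.CH

open Polynomial WeierstrassCurve

variable (ℓ : ℕ) [Fact ℓ.Prime] (a b : ZMod ℓ)

theorem count_two_ne (hℓ : 5 ≤ ℓ) : (2 : ZMod ℓ) ≠ 0 := by
  intro h
  have h1 : ((2 : ℕ) : ZMod ℓ) = 0 := by exact_mod_cast h
  rw [ZMod.natCast_eq_zero_iff] at h1
  have := Nat.le_of_dvd (by norm_num) h1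
  omega

theorem count_nonsing (hℓ : 5 ≤ ℓ) (hΔ : 4 * a ^ 3 + 27 * b ^ 2 ≠ 0) {x y : ZMod ℓ}
    (h : y ^ 2 = x ^ 3 + a * x + b) : (shortW a b).toAffine.Nonsingular x y := by
  rw [nonsingular_short]
  refine ⟨h, ?_⟩
  by_contra hcon
  push Not at hcon
  obtain ⟨h1, h2⟩ := hcon
  have hy : y = 0 := by
    rcases mul_eq_zero.1 h2 with h3 | h3
    · exact absurd h3 (count_two_ne ℓ hℓ)
    · exact h3
  apply hΔ
  have ha : a = -(3 * x ^ 2) := by linear_combination h1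
  have hb : b = 2 * x ^ 3 := by
    rw [hy] at h
    linear_combination (-1 : ZMod ℓ) * h - x * h1
  rw [ha, hb]
  ring

/-- the affine solutions. -/
abbrev countS : Type := {p : ZMod ℓ × ZMod ℓ // p.2 ^ 2 = p.1 ^ 3 + a * p.1 + b}

/-- points = solutions + the point at infinity. -/
def countEquiv (hℓ : 5 ≤ ℓ) (hΔ : 4 * a ^ 3 + 27 * b ^ 2 ≠ 0) : SPt a b ≃ Option (countS ℓ a b) where
  toFun
    | .zero => none
    | .some x y h => some ⟨(x, y), (nonsingular_short.1 h).1⟩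
  invFun
    | none => .zero
    | some p => .some p.1.1 p.1.2 (count_nonsing ℓ a b hℓ hΔ p.2)
  left_inv := by
    rintro (_ | ⟨x, y, h⟩) <;> rfl
  right_inv := by
    rintro (_ | ⟨⟨x, y⟩, h⟩) <;> rfl

open Classical in
theorem count_fibre (hℓ : 5 ≤ ℓ) (x : ZMod ℓ) :
    ((Finset.univ.filter fun y : ZMod ℓ => y ^ 2 = x ^ 3 + a * x + b).card : ℤ)
      = (if x ∈ Z0 ℓ a b then 1 else 0) + 2 * (if x ∈ Zp ℓ a b then 1 else 0) := by
  have hchar : ringChar (ZMod ℓ) ≠ 2 := by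
    rw [ZMod.ringChar_zmod_n]; omega
  have h1 := quadraticChar_card_sqrts hchar (x ^ 3 + a * x + b)
  have h2 : ({y : ZMod ℓ | y ^ 2 = x ^ 3 + a * x + b}.toFinset)
      = (Finset.univ.filter fun y : ZMod ℓ => y ^ 2 = x ^ 3 + a * x + b) := by
    ext y; simp
  rw [h2] at h1
  rw [h1]
  by_cases h0 : x ^ 3 + a * x + b = 0
  · simp [h0, mem_Z0, mem_Zp]
  · by_cases hs : IsSquare (x ^ 3 + a * x + b)
    · rw [(quadraticChar_one_iff_isSquare h0).2 hs]
      simp [h0, hs, mem_Z0, mem_Zp]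
    · rw [quadraticChar_neg_one_iff_not_isSquare.2 hs]
      simp [h0, hs, mem_Z0, mem_Zp]

open Classical in
theorem count_card_S (hℓ : 5 ≤ ℓ) :
    Fintype.card (countS ℓ a b) = (Z0 ℓ a b).card + 2 * (Zp ℓ a b).card := by
  have h1 : Fintype.card (countS ℓ a b)
      = ∑ x : ZMod ℓ, (Finset.univ.filter fun y : ZMod ℓ => y ^ 2 = x ^ 3 + a * x + b).card := by
    rw [Fintype.card_subtype]
    rw [Finset.card_eq_sum_card_fiberwise (f := Prod.fst) (t := Finset.univ)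
      (fun _ _ => Finset.mem_univ _)]
    refine Finset.sum_congr rfl fun x _ => ?_
    refine Finset.card_bij (fun p _ => p.2) ?_ ?_ ?_
    · intro p hp
      simp only [Finset.mem_filter, Finset.mem_univ, true_and] at hp ⊢
      rw [← hp.2]; exact hp.1
    · intro p hp p' hp' hpp
      simp only [Finset.mem_filter, Finset.mem_univ, true_and] at hp hp'
      exact Prod.ext (hp.2.trans hp'.2.symm) hpp
    · intro y hy
      simp only [Finset.mem_filter, Finset.mem_univ, true_and] at hy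
      exact ⟨(x, y), by simp [hy], rfl⟩
  have h2 : ((Fintype.card (countS ℓ a b) : ℕ) : ℤ)
      = (((Z0 ℓ a b).card + 2 * (Zp ℓ a b).card : ℕ) : ℤ) := by
    rw [h1]
    push_cast
    rw [Finset.sum_congr rfl fun x _ => count_fibre ℓ a b hℓ x, Finset.sum_add_distrib,
      ← Finset.mul_sum]
    simp
  exact_mod_cast h2

/-- TASK FR-Count.  Points = `{0} ⊔ {(x, y) | y² = x³ + a x + b}` (all nonsingular:
`nonsingular_short`, `hΔ`, `2 ≠ 0`, `3 ≠ 0`; if `2 y = 0` and `3 x² + a = 0` then `y = 0`,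
`x³ + a x + b = 0`, so `4 a³ + 27 b² = 0`).  The fibre over `x` has `1` element (`y = 0`) for
`x ∈ Z0`, `2` elements (`± y₀`, `y₀ ≠ -y₀`) for `x ∈ Zp`, none for `x ∈ Zm`. -/
theorem card_SPt (hℓ : 5 ≤ ℓ) (hΔ : 4 * a ^ 3 + 27 * b ^ 2 ≠ 0) :
    Nat.card (SPt a b) = 1 + (Z0 ℓ a b).card + 2 * (Zp ℓ a b).card := by
  classical
  rw [Nat.card_congr (countEquiv ℓ a b hℓ hΔ), Nat.card_eq_fintype_card, Fintype.card_option,
    count_card_S ℓ a b hℓ]
  ring

end Fermat.Agent.S52.CH
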