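import Fermat.Agent.S52.CH.FrobDefs

/-!
# S52, chapter CH, task FR-Pt: the abscissa of `φ P - P`.
-/

set_option autoImplicit false
set_option linter.unusedSectionVars false

namespace Fermat.Agent.S52.CH

open Polynomial WeierstrassCurve Fermat.Agent.S05

variable (ℓ : ℕ) [Fact ℓ.Prime] (a b : ZMod ℓ)

/-- TASK FR-Pt.  `φ P = (x^ℓ, y^ℓ)` (`frobS`, `shortMap_some`, `frobenius_def`), `-P = (x, -y)`,
`x^ℓ ≠ x`: `Affine.Point.add_of_X_ne`, `slope_of_X_ne`, `addX`; so `pZ = 1` and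
`pX = ((y^ℓ + y)/(x^ℓ - x))² - x^ℓ - x`; `y^ℓ = y (y²)^((ℓ-1)/2)`, `y² = x³ + A x + B`
(`nonsingular_short`). -/
theorem frob_sub_pt (hℓ : 5 ≤ ℓ) (x y : Fbar ℓ)
    (h : (shortW (algebraMap (ZMod ℓ) (Fbar ℓ) a) (algebraMap (ZMod ℓ) (Fbar ℓ) b)).toAffine.Nonsingular
      x y) (hx : x ^ ℓ ≠ x) :
    pX (frobS ℓ a b (.some x y h) - .some x y h) * (x ^ ℓ - x) ^ 2 =
      pZ (frobS ℓ a b (.some x y h) - .some x y h) *
        ((numF ℓ a b).map (algebraMap (ZMod ℓ) (Fbar ℓ))).eval x := by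
  set A := algebraMap (ZMod ℓ) (Fbar ℓ) a with hA
  set B := algebraMap (ZMod ℓ) (Fbar ℓ) b with hB
  have hy2 : y ^ 2 = x ^ 3 + A * x + B := (nonsingular_short.1 h).1
  have hfrob : frobS ℓ a b (.some x y h) = .some (x ^ ℓ) (y ^ ℓ)
      (nonsingular_short_map (frobenius (Fbar ℓ) ℓ) (frobenius_algebraMap ℓ a)
        (frobenius_algebraMap ℓ b) h) := rfl
  rw [hfrob, sub_eq_add_neg, Affine.Point.neg_some, Affine.Point.add_of_X_ne hx]
  simp only [pX_some, pZ_some, one_mul]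
  have hne : x ^ ℓ - x ≠ 0 := sub_ne_zero.2 hx
  have hodd : ℓ = 2 * ((ℓ - 1) / 2) + 1 := by
    have h2 : ℓ % 2 = 1 := by
      rcases (Fact.out : ℓ.Prime).eq_two_or_odd with h | h
      · omega
      · exact h
    omega
  have hyl : y ^ ℓ = y * (x ^ 3 + A * x + B) ^ ((ℓ - 1) / 2) := by
    have e : y ^ ℓ = y ^ (2 * ((ℓ - 1) / 2) + 1) := congrArg (fun n : ℕ => y ^ n) hodd
    rw [e, pow_succ, pow_mul, hy2, mul_comm]
  have hnum : ((numF ℓ a b).map (algebraMap (ZMod ℓ) (Fbar ℓ))).eval x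
      = (x ^ 3 + A * x + B) * ((x ^ 3 + A * x + B) ^ ((ℓ - 1) / 2) + 1) ^ 2
        - (x ^ ℓ + x) * (x ^ ℓ - x) ^ 2 := by
    simp [numF, fpol, hA, hB]
  rw [hnum, Affine.slope_of_X_ne hx]
  simp only [Affine.addX, Affine.negY, shortW]
  rw [hyl, ← hy2]
  field_simp
  ring
end Fermat.Agent.S52.CH
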