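import Fermat.Agent.S52.CH.FrobPoly
import Fermat.Agent.S52.CH.FrobCount
import Fermat.Agent.S52.CH.FrobPt

/-!
# S52, chapter CH: `φ - 1` has degree `#E(𝔽_ℓ)`.
-/

set_option autoImplicit false
set_option linter.unusedSectionVars false

namespace Fermat.Agent.S52.CH

open Polynomial WeierstrassCurve Fermat.Agent.S05

variable (ℓ : ℕ) [Fact ℓ.Prime] (a b : ZMod ℓ)

theorem eventually_pow_ne : ∀ᶠ x : Fbar ℓ in Filter.cofinite, x ^ ℓ ≠ x := by
  have hprime : ℓ.Prime := Fact.out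
  have hne : (X ^ ℓ - X : (Fbar ℓ)[X]) ≠ 0 := FiniteField.X_pow_card_sub_X_ne_zero _ hprime.one_lt
  have : {x : Fbar ℓ | ¬ x ^ ℓ ≠ x}.Finite := by
    refine ((X ^ ℓ - X : (Fbar ℓ)[X]).roots.toFinset.finite_toSet).subset ?_
    intro x hx
    simp only [Set.mem_ofPred_eq, not_not] at hx
    simp only [Finset.mem_coe, Multiset.mem_toFinset, mem_roots hne, IsRoot.def, eval_sub,
      eval_pow, eval_X, hx, sub_self]
  exact this

theorem hasDeg_frob_sub_one (hℓ : 5 ≤ ℓ) (hΔ : 4 * a ^ 3 + 27 * b ^ 2 ≠ 0) :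
    HasDeg (fun P => frobS ℓ a b P - P) (Nat.card (SPt a b)) := by
  obtain ⟨n, d, e, hc, hdeg, hnd, hne, hde⟩ := exists_frob_sub_poly ℓ a b hℓ hΔ
  refine ⟨n.map (algebraMap (ZMod ℓ) (Fbar ℓ)), d.map (algebraMap (ZMod ℓ) (Fbar ℓ)),
    ⟨?_, ?_, ?_⟩, ?_⟩
  · exact hc.map (mapRingHom (algebraMap (ZMod ℓ) (Fbar ℓ)))
  · rw [degree_map, degree_map]; exact hdeg
  · filter_upwards [eventually_pow_ne ℓ] with x hx y h
    have h1 := frob_sub_pt ℓ a b hℓ x y h hx
    have h2 := congrArg (fun p => (p.map (algebraMap (ZMod ℓ) (Fbar ℓ))).eval x) hde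
    simp only [Polynomial.map_mul, Polynomial.map_pow, Polynomial.map_sub, Polynomial.map_X,
      eval_mul, eval_pow, eval_sub, eval_X] at h2
    rw [← hne, Polynomial.map_mul, eval_mul, ← h2] at h1
    have he : (e.map (algebraMap (ZMod ℓ) (Fbar ℓ))).eval x ≠ 0 := by
      intro h0
      rw [h0, mul_zero] at h2
      exact (pow_ne_zero 2 (sub_ne_zero.mpr hx)) h2.symm
    apply mul_right_cancel₀ he
    linear_combination h1
  · rw [natDegree_map, hnd, card_SPt ℓ a b hℓ hΔ]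

end Fermat.Agent.S52.CH
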