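import Fermat.Agent.S52.CH.Defs

/-!
# S52, chapter CH, task LAD-Pt: pointwise facts behind the ladder step.
-/

set_option autoImplicit false
set_option linter.unusedSectionVars false

namespace Fermat.Agent.S52.CH

open Polynomial WeierstrassCurve Fermat.Agent.S05

variable {k : Type*} [Field k] [DecidableEq k] {W : Affine k}

/-- TASK LAD-Pt (1).  Every `[a : b]` is `[pX P : pZ P]` for a point `P`. -/
theorem exists_point (hpt : ∀ x : k, ∃ y, W.Nonsingular x y) {a b : k} (h : a ≠ 0 ∨ b ≠ 0) :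
    ∃ (P : W.Point) (c : k), c ≠ 0 ∧ a = c * pX P ∧ b = c * pZ P := by
  by_cases hb : b = 0
  · have ha : a ≠ 0 := by
      rcases h with h | h
      · exact h
      · exact absurd hb h
    exact ⟨0, a, ha, by simp, by simp [hb]⟩
  · obtain ⟨y, hy⟩ := hpt (a / b)
    refine ⟨.some (a / b) y hy, b, hb, ?_, by simp⟩
    rw [pX_some]
    field_simp

/-- proportionality from the cross relation. -/
theorem ladPt_prop (P : W.Point) {a b : k} (h : a ≠ 0 ∨ b ≠ 0) (e : pX P * b = pZ P * a) :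
    ∃ c : k, c ≠ 0 ∧ pX P = c * a ∧ pZ P = c * b := by
  cases P with
  | zero =>
    have hX : pX (Affine.Point.zero : W.Point) = 1 := rfl
    have hZ : pZ (Affine.Point.zero : W.Point) = 0 := rfl
    rw [hX, hZ] at e ⊢
    have hb : b = 0 := by simpa using e
    have ha : a ≠ 0 := by
      rcases h with h | h
      · exact h
      · exact absurd hb h
    exact ⟨a⁻¹, inv_ne_zero ha, by field_simp, by simp [hb]⟩
  | some x y hxy =>
    rw [pX_some, pZ_some] at e ⊢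
    have hb : b ≠ 0 := by
      intro hb
      rw [hb] at e
      rcases h with h | h
      · apply h; simpa using e.symm
      · exact h hb
    refine ⟨b⁻¹, inv_ne_zero hb, ?_, by field_simp⟩
    field_simp
    linear_combination e

/-- TASK LAD-Pt (3).  If `[pX P : pZ P] = [a₁ : b₁]`, `[pX Q : pZ Q] = [a₂ : b₂]` then
`(X₊X₋, X₊Z₋ + Z₊X₋, Z₊Z₋)` is a nonzero multiple of `(S, T, U)(a₁a₂, a₁b₂ + b₁a₂, b₁b₂)`. -/
theorem addSub_scaled (P Q : W.Point) {a₁ b₁ a₂ b₂ : k}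
    (h₁ : a₁ ≠ 0 ∨ b₁ ≠ 0) (h₂ : a₂ ≠ 0 ∨ b₂ ≠ 0)
    (e₁ : pX P * b₁ = pZ P * a₁) (e₂ : pX Q * b₂ = pZ Q * a₂) : ∃ c : k, c ≠ 0 ∧
    pX (P + Q) * pX (P - Q) = c * asS W (a₁ * a₂) (a₁ * b₂ + b₁ * a₂) (b₁ * b₂) ∧
    pX (P + Q) * pZ (P - Q) + pZ (P + Q) * pX (P - Q) =
      c * asT W (a₁ * a₂) (a₁ * b₂ + b₁ * a₂) (b₁ * b₂) ∧
    pZ (P + Q) * pZ (P - Q) = c * asU (a₁ * a₂) (a₁ * b₂ + b₁ * a₂) (b₁ * b₂) := by
  obtain ⟨c₁, hc₁, x₁, z₁⟩ := ladPt_prop P h₁ e₁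
  obtain ⟨c₂, hc₂, x₂, z₂⟩ := ladPt_prop Q h₂ e₂
  obtain ⟨c, hc, eS, eT, eU⟩ := addSub P Q
  refine ⟨c * (c₁ * c₂) ^ 2, mul_ne_zero hc (pow_ne_zero 2 (mul_ne_zero hc₁ hc₂)), ?_, ?_, ?_⟩
  · rw [eS, x₁, z₁, x₂, z₂]; simp only [asS]; ring
  · rw [eT, x₁, z₁, x₂, z₂]; simp only [asT]; ring
  · rw [eU, x₁, z₁, x₂, z₂]; simp only [asU]; ring

/-- TASK LAD-Pt (2).  The add-sub map has no base point: choose points `P₁, P₂` by `exists_point`,
apply `S05.addSub P₁ P₂`; `(X₊X₋, X₊Z₋ + Z₊X₋, Z₊Z₋) ≠ 0` because `(X±, Z±) ≠ 0`;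
`asS, asT, asU` are homogeneous of degree 2. -/
theorem stu_ne_zero (hpt : ∀ x : k, ∃ y, W.Nonsingular x y) {a₁ b₁ a₂ b₂ : k}
    (h₁ : a₁ ≠ 0 ∨ b₁ ≠ 0) (h₂ : a₂ ≠ 0 ∨ b₂ ≠ 0) :
    asS W (a₁ * a₂) (a₁ * b₂ + b₁ * a₂) (b₁ * b₂) ≠ 0 ∨
    asT W (a₁ * a₂) (a₁ * b₂ + b₁ * a₂) (b₁ * b₂) ≠ 0 ∨
    asU (a₁ * a₂) (a₁ * b₂ + b₁ * a₂) (b₁ * b₂) ≠ 0 := by
  obtain ⟨P, c₁, hc₁, x₁, z₁⟩ := exists_point hpt h₁
  obtain ⟨Q, c₂, hc₂, x₂, z₂⟩ := exists_point hpt h₂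
  obtain ⟨c, hc, eS, eT, eU⟩ := addSub_scaled P Q h₁ h₂ (by rw [x₁, z₁]; ring) (by rw [x₂, z₂]; ring)
  by_contra hcon
  push Not at hcon
  obtain ⟨hS, hT, hU⟩ := hcon
  rw [hS, mul_zero] at eS
  rw [hT, mul_zero] at eT
  rw [hU, mul_zero] at eU
  have hp := pXZ_ne_zero (P + Q)
  have hm := pXZ_ne_zero (P - Q)
  generalize pX (P + Q) = Xp at *
  generalize pZ (P + Q) = Zp at *
  generalize pX (P - Q) = Xm at *
  generalize pZ (P - Q) = Zm at *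
  rcases mul_eq_zero.mp eU with h | h
  · -- Zp = 0
    have hXp : Xp ≠ 0 := by
      rcases hp with hp | hp
      · exact hp
      · exact absurd h hp
    have h3 : Xm = 0 := (mul_eq_zero.mp eS).resolve_left hXp
    rw [h, h3] at eT
    have h4 : Zm = 0 := by
      have : Xp * Zm = 0 := by linear_combination eT
      exact (mul_eq_zero.mp this).resolve_left hXp
    rcases hm with hm | hm
    · exact hm h3
    · exact hm h4
  · have hXm : Xm ≠ 0 := by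
      rcases hm with hm | hm
      · exact hm
      · exact absurd h hm
    have h3 : Xp = 0 := (mul_eq_zero.mp eS).resolve_right hXm
    rw [h, h3] at eT
    have h4 : Zp = 0 := by
      have : Zp * Xm = 0 := by linear_combination eT
      exact (mul_eq_zero.mp this).resolve_right hXm
    rcases hp with hp | hp
    · exact hp h3
    · exact hp h4

end Fermat.Agent.S52.CH
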