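import Fermat.Agent.S52.CH.LadderAlg
import Fermat.Agent.S52.CH.LadderPt

/-!
# S52, chapter CH: the ladder step (parallelogram law for the degree).
-/

set_option autoImplicit false
set_option linter.unusedSectionVars false

namespace Fermat.Agent.S52.CH

open Polynomial WeierstrassCurve Fermat.Agent.S05

variable {k : Type*} [Field k] [DecidableEq k] {W : Affine k}

theorem XRep.ladder [IsAlgClosed k] (hpt : ∀ x : k, ∃ y, W.Nonsingular x y)
    {α β : W.Point → W.Point} {n₁ d₁ n₂ d₂ n₃ d₃ : k[X]}
    (h₁ : XRep α n₁ d₁) (h₂ : XRep β n₂ d₂) (h₃ : XRep (fun P => α P - β P) n₃ d₃) :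
    ∃ n₄ d₄ : k[X], XRep (fun P => α P + β P) n₄ d₄ ∧
      n₄.natDegree + n₃.natDegree = 2 * (n₁.natDegree + n₂.natDegree) := by
  have : Infinite k := IsAlgClosed.instInfinite
  set S := polS W (n₁ * n₂) (n₁ * d₂ + d₁ * n₂) (d₁ * d₂) with hSdef
  set T := polT W (n₁ * n₂) (n₁ * d₂ + d₁ * n₂) (d₁ * d₂) with hTdef
  set U := polU (n₁ * n₂) (n₁ * d₂ + d₁ * n₂) (d₁ * d₂) with hUdef
  -- pointwise relation
  have key : ∀ᶠ x in Filter.cofinite, ∀ (y : k) (h : W.Nonsingular x y), ∃ c : k, c ≠ 0 ∧
      pX (α (.some x y h) + β (.some x y h)) * pX (α (.some x y h) - β (.some x y h))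
        = c * S.eval x ∧
      pX (α (.some x y h) + β (.some x y h)) * pZ (α (.some x y h) - β (.some x y h)) +
        pZ (α (.some x y h) + β (.some x y h)) * pX (α (.some x y h) - β (.some x y h))
        = c * T.eval x ∧
      pZ (α (.some x y h) + β (.some x y h)) * pZ (α (.some x y h) - β (.some x y h))
        = c * U.eval x := by
    filter_upwards [h₁.rel, h₂.rel] with x r₁ r₂ y h
    have := addSub_scaled (α (.some x y h)) (β (.some x y h)) (h₁.eval_ne_zero x)
      (h₂.eval_ne_zero x) (r₁ y h) (r₂ y h)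
    simpa only [hSdef, hTdef, hUdef, eval_polS, eval_polT, eval_polU, eval_mul, eval_add] using this
  have hquad : U * n₃ ^ 2 - T * n₃ * d₃ + S * d₃ ^ 2 = 0 := by
    apply eq_zero_of_eventually
    filter_upwards [key, h₃.rel] with x hk r₃
    obtain ⟨y, h⟩ := hpt x
    obtain ⟨c, hc, e1, e2, e3⟩ := hk y h
    have r := r₃ y h
    apply mul_left_cancel₀ hc
    simp only [eval_add, eval_sub, eval_mul, eval_pow, mul_zero]
    generalize pX (α (.some x y h) + β (.some x y h)) = Xp at *
    generalize pZ (α (.some x y h) + β (.some x y h)) = Zp at *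
    generalize pX (α (.some x y h) - β (.some x y h)) = Xm at *
    generalize pZ (α (.some x y h) - β (.some x y h)) = Zm at *
    linear_combination (-(eval x n₃) ^ 2) * e3 + (eval x n₃ * eval x d₃) * e2
      - (eval x d₃) ^ 2 * e1 + (Xp * eval x d₃ - Zp * eval x n₃) * r
  obtain ⟨n₄, d₄, hS, hT, hU⟩ := factor_of_quadratic h₃.coprime h₃.ne_zero hquad
  have hSdeg := natDegree_polS W h₁.deg h₂.deg
  have hTdeg := degree_polT_lt W h₁.deg h₂.deg
  rw [← hSdef] at hSdeg
  rw [← hTdef] at hTdeg
  have hS0 : S ≠ 0 := by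
    intro h0
    rw [h0, degree_zero] at hSdeg
    exact WithBot.bot_ne_coe hSdeg
  have hn₄ : n₄ ≠ 0 := by
    intro h0
    apply hS0
    rw [hS, h0, zero_mul]
  have hn₃ := h₃.ne_zero
  have hdegsum : n₄.natDegree + n₃.natDegree = 2 * (n₁.natDegree + n₂.natDegree) := by
    rw [← natDegree_mul hn₄ hn₃, ← hS]
    exact natDegree_eq_of_degree_eq_some hSdeg
  refine ⟨n₄, d₄, ⟨?_, ?_, ?_⟩, hdegsum⟩
  · rw [Polynomial.isCoprime_iff_aeval_ne_zero_of_isAlgClosed (k := k) k]
    intro a
    by_contra hcon
    push Not at hcon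
    simp only [coe_aeval_eq_eval] at hcon
    have hs := stu_ne_zero hpt (h₁.eval_ne_zero a) (h₂.eval_ne_zero a)
    have eS : S.eval a = 0 := by rw [hS, eval_mul, hcon.1, zero_mul]
    have eT : T.eval a = 0 := by rw [hT, eval_add, eval_mul, eval_mul, hcon.1, hcon.2]; ring
    have eU : U.eval a = 0 := by rw [hU, eval_mul, hcon.2, zero_mul]
    simp only [hSdef, hTdef, hUdef, eval_polS, eval_polT, eval_polU, eval_mul, eval_add]
      at eS eT eU
    rcases hs with hs | hs | hs
    · exact hs eS
    · exact hs eT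
    · exact hs eU
  · -- degree
    have h1 : (d₄ * n₃).degree < (n₄ * n₃).degree := by
      have e : d₄ * n₃ = T - n₄ * d₃ := by rw [hT]; ring
      rw [e]
      refine lt_of_le_of_lt (degree_sub_le _ _) (max_lt ?_ ?_)
      · rw [← hS, hSdeg]; exact hTdeg
      · rw [degree_mul, degree_mul]
        exact WithBot.add_lt_add_left (by rw [Ne, degree_eq_bot]; exact hn₄) h₃.deg
    rw [degree_mul, degree_mul] at h1
    exact lt_of_add_lt_add_right h1
  · filter_upwards [key, h₃.rel] with x hk r₃ y h
    obtain ⟨c, hc, e1, e2, e3⟩ := hk y h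
    have r := r₃ y h
    have hne := h₃.eval_ne_zero x
    have hm := pXZ_ne_zero (α (.some x y h) - β (.some x y h))
    rw [hS, eval_mul] at e1
    rw [hT, eval_add, eval_mul, eval_mul] at e2
    rw [hU, eval_mul] at e3
    generalize pX (α (.some x y h) + β (.some x y h)) = Xp at *
    generalize pZ (α (.some x y h) + β (.some x y h)) = Zp at *
    generalize pX (α (.some x y h) - β (.some x y h)) = Xm at *
    generalize pZ (α (.some x y h) - β (.some x y h)) = Zm at *
    generalize eval x n₃ = a₃ at *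
    generalize eval x d₃ = b₃ at *
    generalize eval x n₄ = a₄ at *
    generalize eval x d₄ = b₄ at *
    rcases hne with hne | hne
    · have hX : Xm ≠ 0 := by
        intro h0
        rw [h0, zero_mul] at r
        rcases hm with hm | hm
        · exact hm h0
        · exact (mul_ne_zero hm hne) r.symm
      have : (Xp * b₄ - Zp * a₄) * (c * a₃ * Xm) = 0 := by
        linear_combination (-Xp * Xm) * e2 + (Zp * Xm + Xp * Zm) * e1 - c * a₄ * Xp * r
      rcases mul_eq_zero.mp this with h0 | h0
      · exact sub_eq_zero.mp h0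
      · exact absurd h0 (mul_ne_zero (mul_ne_zero hc hne) hX)
    · have hZ : Zm ≠ 0 := by
        intro h0
        rw [h0, zero_mul] at r
        rcases hm with hm | hm
        · exact (mul_ne_zero hm hne) r
        · exact hm h0
      have : (Xp * b₄ - Zp * a₄) * (c * b₃ * Zm) = 0 := by
        linear_combination (Zp * Zm) * e2 - (Xp * Zm + Zp * Xm) * e3 - c * b₄ * Zp * r
      rcases mul_eq_zero.mp this with h0 | h0
      · exact sub_eq_zero.mp h0
      · exact absurd h0 (mul_ne_zero (mul_ne_zero hc hne) hZ)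

end Fermat.Agent.S52.CH
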