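import Fermat.Agent.S52.Short
import Fermat.Agent.S05.XOnly

/-!
# S52, chapter CH: definitions

`k` a field, `W` a Weierstrass curve over `k`, `G = W.Point`.  A map `α : G → G` has the
*x-only representation* `(n, d)`, `n d : k[X]` coprime with `deg d < deg n`, if
`[x(α P) : 1] = [n(x) : d(x)]` for all points `P = (x, y)` with `x` outside a finite set.
`HasDeg α D` : `α` has such a representation with `natDegree n = D`.
-/

set_option autoImplicit false
set_option linter.unusedSectionVars false

namespace Fermat.Agent.S52.CH

open Polynomial WeierstrassCurve Fermat.Agent.S05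

variable {k : Type*} [Field k] [DecidableEq k] {W : Affine k}

/-- x-only representation of a self map of `W.Point` by a reduced fraction `n / d`. -/
structure XRep (α : W.Point → W.Point) (n d : k[X]) : Prop where
  coprime : IsCoprime n d
  deg : d.degree < n.degree
  rel : ∀ᶠ x in Filter.cofinite, ∀ (y : k) (h : W.Nonsingular x y),
    pX (α (.some x y h)) * d.eval x = pZ (α (.some x y h)) * n.eval x

/-- `α` has an x-only representation of degree `D`. -/
def HasDeg (α : W.Point → W.Point) (D : ℕ) : Prop :=
  ∃ n d : k[X], XRep α n d ∧ n.natDegree = D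

/-- polynomial versions of `S05.asS, asT, asU`. -/
noncomputable def polS (W : Affine k) (s t u : k[X]) : k[X] :=
  s ^ 2 - C W.b₄ * s * u - C W.b₆ * t * u - C W.b₈ * u ^ 2
noncomputable def polT (W : Affine k) (s t u : k[X]) : k[X] :=
  2 * t * s + C W.b₂ * s * u + C W.b₄ * t * u + C W.b₆ * u ^ 2
noncomputable def polU (s t u : k[X]) : k[X] := t ^ 2 - 4 * s * u

theorem eval_polS (x : k) (s t u : k[X]) :
    (polS W s t u).eval x = asS W (s.eval x) (t.eval x) (u.eval x) := by
  simp [polS, asS]

theorem eval_polT (x : k) (s t u : k[X]) :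
    (polT W s t u).eval x = asT W (s.eval x) (t.eval x) (u.eval x) := by
  simp [polT, asT]

theorem eval_polU (x : k) (s t u : k[X]) :
    (polU s t u).eval x = asU (s.eval x) (t.eval x) (u.eval x) := by
  simp [polU, asU]

theorem pXZ_ne_zero (P : W.Point) : pX P ≠ 0 ∨ pZ P ≠ 0 := by
  cases P with
  | zero => left; simp [pX]
  | some x y h => right; simp [pZ]

theorem XRep.ne_zero {α : W.Point → W.Point} {n d : k[X]} (h : XRep α n d) : n ≠ 0 := by
  intro h0
  have := h.deg
  rw [h0, degree_zero] at this
  exact not_lt_bot this

theorem XRep.eval_ne_zero {α : W.Point → W.Point} {n d : k[X]} (h : XRep α n d) (x : k) :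
    n.eval x ≠ 0 ∨ d.eval x ≠ 0 := by
  obtain ⟨a, b, hab⟩ := h.coprime
  by_contra hc
  push Not at hc
  have := congrArg (eval x) hab
  simp [hc.1, hc.2] at this

/-- a polynomial vanishing at cofinitely many points of an infinite field is zero. -/
theorem eq_zero_of_eventually [Infinite k] {p : k[X]}
    (h : ∀ᶠ x in Filter.cofinite, p.eval x = 0) : p = 0 := by
  by_contra hp
  have h1 : {x | ¬ p.eval x = 0}.Finite := h
  have h2 : {x | p.eval x = 0}.Finite := by
    refine (p.roots.toFinset.finite_toSet).subset ?_
    intro x hx
    simp only [Finset.mem_coe, Multiset.mem_toFinset, mem_roots hp]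
    exact hx
  have h3 : (Set.univ : Set k).Finite := by
    refine (h1.union h2).subset ?_
    intro x _
    by_cases hx : p.eval x = 0
    · exact Or.inr hx
    · exact Or.inl hx
  exact Set.infinite_univ h3

end Fermat.Agent.S52.CH
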