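import Fermat.Agent.S52.CH.Defs

/-!
# S52, chapter CH: definitions for the representation of `φ - 1`.

`f = X³ + a X + b` over `𝔽_ℓ`, `g = f^((ℓ-1)/2)`.  For `P = (x, y)` with `x^ℓ ≠ x`:
`x(φ P - P) = numF(x) / (x^ℓ - x)²`, `numF = f (g + 1)² - (X^ℓ + X)(X^ℓ - X)²`.
`Z0, Zp, Zm` : the `x₀ ∈ 𝔽_ℓ` with `f(x₀)` zero / a nonzero square / a nonsquare.
-/

set_option autoImplicit false
set_option linter.unusedSectionVars false

namespace Fermat.Agent.S52.CH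

open Polynomial

variable (ℓ : ℕ) [Fact ℓ.Prime] (a b : ZMod ℓ)

/-- `X³ + a X + b`. -/
noncomputable def fpol : (ZMod ℓ)[X] := X ^ 3 + C a * X + C b

/-- numerator of `x(φ P - P)` before cancellation. -/
noncomputable def numF : (ZMod ℓ)[X] :=
  fpol ℓ a b * (fpol ℓ a b ^ ((ℓ - 1) / 2) + 1) ^ 2 - (X ^ ℓ + X) * (X ^ ℓ - X) ^ 2

open Classical in
/-- `f(x₀) = 0`. -/
noncomputable def Z0 : Finset (ZMod ℓ) := Finset.univ.filter fun x => x ^ 3 + a * x + b = 0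

open Classical in
/-- `f(x₀)` a nonzero square. -/
noncomputable def Zp : Finset (ZMod ℓ) :=
  Finset.univ.filter fun x => x ^ 3 + a * x + b ≠ 0 ∧ IsSquare (x ^ 3 + a * x + b)

open Classical in
/-- `f(x₀)` a nonsquare. -/
noncomputable def Zm : Finset (ZMod ℓ) :=
  Finset.univ.filter fun x => ¬ IsSquare (x ^ 3 + a * x + b)

/-- `∏_{x₀ ∈ s} (X - x₀)`. -/
noncomputable def prodX (s : Finset (ZMod ℓ)) : (ZMod ℓ)[X] := ∏ x ∈ s, (X - C x)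

theorem eval_fpol (x : ZMod ℓ) : (fpol ℓ a b).eval x = x ^ 3 + a * x + b := by
  simp [fpol]

theorem mem_Z0 {x : ZMod ℓ} : x ∈ Z0 ℓ a b ↔ x ^ 3 + a * x + b = 0 := by
  simp [Z0]

theorem mem_Zp {x : ZMod ℓ} :
    x ∈ Zp ℓ a b ↔ x ^ 3 + a * x + b ≠ 0 ∧ IsSquare (x ^ 3 + a * x + b) := by
  simp [Zp]

theorem mem_Zm {x : ZMod ℓ} : x ∈ Zm ℓ a b ↔ ¬ IsSquare (x ^ 3 + a * x + b) := by
  simp [Zm]

end Fermat.Agent.S52.CH
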