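import Fermat.Agent.S52.CH.FrobDefs

/-!
# S52, chapter CH, task FR-Deg: `numF` has degree `2 ℓ + 1`.
-/

set_option autoImplicit false
set_option linter.unusedSectionVars false

namespace Fermat.Agent.S52.CH

open Polynomial

variable (ℓ : ℕ) [Fact ℓ.Prime] (a b : ZMod ℓ)

theorem fpol_pow_card : fpol ℓ a b ^ ℓ = (X ^ ℓ) ^ 3 + C a * X ^ ℓ + C b := by
  rw [← ZMod.expand_card]
  simp [fpol]

theorem natDegree_fpol_le : (fpol ℓ a b).natDegree ≤ 3 := by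
  unfold fpol
  compute_degree

/-- TASK FR-Deg.  With `m = (ℓ-1)/2`, `ℓ = 2 m + 1`: `f (f^m + 1)² = f^ℓ + 2 f^(m+1) + f` and
`f^ℓ = X^(3ℓ) + a X^ℓ + b`, while
`(X^ℓ + X)(X^ℓ - X)² = X^(3ℓ) - X^(2ℓ+1) - X^(ℓ+2) + X³`.  So
`numF = X^(2ℓ+1) + (X^(ℓ+2) + a X^ℓ + b + 2 f^(m+1) + f - X³)` and the bracket has degree
`≤ max (ℓ+2) (3(m+1)) < 2ℓ+1`. -/
theorem natDegree_numF (hℓ : 5 ≤ ℓ) : (numF ℓ a b).natDegree = 2 * ℓ + 1 := by
  have hprime : ℓ.Prime := Fact.out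
  obtain ⟨m, hm⟩ := hprime.odd_of_ne_two (by omega)
  have hm' : (ℓ - 1) / 2 = m := by omega
  have hf := fpol_pow_card ℓ a b
  have hfd := natDegree_fpol_le ℓ a b
  have key : numF ℓ a b = X ^ (2 * ℓ + 1) + (X ^ (ℓ + 2) + C a * X ^ ℓ + C b
      + C 2 * fpol ℓ a b ^ (m + 1) + fpol ℓ a b - X ^ 3) := by
    unfold numF
    rw [hm']
    have e1 : fpol ℓ a b * (fpol ℓ a b ^ m + 1) ^ 2
        = fpol ℓ a b ^ ℓ + C 2 * fpol ℓ a b ^ (m + 1) + fpol ℓ a b := by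
      have e2 : fpol ℓ a b ^ ℓ = fpol ℓ a b ^ (2 * m + 1) := congrArg (fpol ℓ a b ^ ·) hm
      rw [map_ofNat, e2]
      ring
    rw [e1, hf]
    ring
  rw [key]
  generalize fpol ℓ a b = f at *
  have hE : (X ^ (ℓ + 2) + C a * X ^ ℓ + C b + C 2 * f ^ (m + 1) + f - X ^ 3).natDegree
      < 2 * ℓ + 1 := by
    have h1 : (f ^ (m + 1)).natDegree ≤ 2 * ℓ :=
      le_trans (natDegree_pow_le) (by nlinarith)
    have h2 : (C 2 * f ^ (m + 1)).natDegree ≤ 2 * ℓ := le_trans (natDegree_C_mul_le _ _) h1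
    have h3 : (X ^ (ℓ + 2) : (ZMod ℓ)[X]).natDegree ≤ 2 * ℓ := by
      rw [natDegree_X_pow]; omega
    have h4 : (C a * X ^ ℓ : (ZMod ℓ)[X]).natDegree ≤ 2 * ℓ :=
      le_trans (natDegree_C_mul_X_pow_le _ _) (by omega)
    have h5 : (C b : (ZMod ℓ)[X]).natDegree ≤ 2 * ℓ := by rw [natDegree_C]; omega
    have h6 : f.natDegree ≤ 2 * ℓ := by omega
    have h7 : (X ^ 3 : (ZMod ℓ)[X]).natDegree ≤ 2 * ℓ := by rw [natDegree_X_pow]; omega
    have := natDegree_sub_le_of_le (natDegree_add_le_of_degree_le (natDegree_add_le_of_degree_le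
      (natDegree_add_le_of_degree_le (natDegree_add_le_of_degree_le h3 h4) h5) h2) h6) h7
    omega
  rw [natDegree_add_eq_left_of_natDegree_lt, natDegree_X_pow]
  rw [natDegree_X_pow]
  exact hE

end Fermat.Agent.S52.CH
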