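import Fermat.Agent.S52.CH.FrobDefs

/-!
# S52, chapter CH, task FR-Split: factorisations over `𝔽_ℓ`.
-/

set_option autoImplicit false
set_option linter.unusedSectionVars false

namespace Fermat.Agent.S52.CH

open Polynomial

variable (ℓ : ℕ) [Fact ℓ.Prime] (a b : ZMod ℓ)

theorem split_disj1 : Disjoint (Z0 ℓ a b) (Zp ℓ a b) := by
  rw [Finset.disjoint_left]
  intro x h0 hp
  rw [mem_Z0] at h0
  rw [mem_Zp] at hp
  exact hp.1 h0

theorem split_disj2 : Disjoint (Z0 ℓ a b ∪ Zp ℓ a b) (Zm ℓ a b) := by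
  rw [Finset.disjoint_left]
  intro x h0 hm
  rw [mem_Zm] at hm
  rw [Finset.mem_union, mem_Z0, mem_Zp] at h0
  rcases h0 with h0 | h0
  · apply hm; rw [h0]; exact IsSquare.zero
  · exact hm h0.2

theorem split_union : Z0 ℓ a b ∪ Zp ℓ a b ∪ Zm ℓ a b = Finset.univ := by
  ext x
  simp only [Finset.mem_union, mem_Z0, mem_Zp, mem_Zm, Finset.mem_univ, iff_true]
  by_cases h0 : x ^ 3 + a * x + b = 0
  · exact Or.inl (Or.inl h0)
  · by_cases h1 : IsSquare (x ^ 3 + a * x + b)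
    · exact Or.inl (Or.inr ⟨h0, h1⟩)
    · exact Or.inr h1

/-- TASK FR-Split (1). `univ = Z0 ⊔ Zp ⊔ Zm`. -/
theorem card_Z_add : (Z0 ℓ a b).card + (Zp ℓ a b).card + (Zm ℓ a b).card = ℓ := by
  rw [← Finset.card_union_of_disjoint (split_disj1 ℓ a b),
    ← Finset.card_union_of_disjoint (split_disj2 ℓ a b), split_union, Finset.card_univ, ZMod.card]

/-- TASK FR-Split (2). `X^ℓ - X = ∏_{x₀ ∈ 𝔽_ℓ} (X - x₀)`, split according to
`univ = Z0 ⊔ Zp ⊔ Zm`. -/
theorem X_pow_sub_X_eq :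
    (X ^ ℓ - X : (ZMod ℓ)[X]) = prodX ℓ (Z0 ℓ a b) * prodX ℓ (Zp ℓ a b) * prodX ℓ (Zm ℓ a b) := by
  have hprime : ℓ.Prime := Fact.out
  unfold prodX
  rw [← Finset.prod_union (split_disj1 ℓ a b), ← Finset.prod_union (split_disj2 ℓ a b),
    split_union]
  have hroots : (X ^ ℓ - X : (ZMod ℓ)[X]).roots = Finset.univ.val := by
    have := FiniteField.roots_X_pow_card_sub_X (ZMod ℓ)
    rwa [ZMod.card] at this
  have hdeg : (X ^ ℓ - X : (ZMod ℓ)[X]).natDegree = ℓ :=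
    FiniteField.X_pow_card_sub_X_natDegree_eq _ hprime.one_lt
  have hmonic : (X ^ ℓ - X : (ZMod ℓ)[X]).Monic := by
    apply monic_X_pow_sub
    rw [degree_X]
    exact_mod_cast hprime.one_lt
  have := prod_multiset_X_sub_C_of_monic_of_roots_card_eq hmonic
    (by rw [hroots, hdeg]; simp [ZMod.card])
  rw [← this, hroots]
  rfl

/-- TASK FR-Split (3). -/
theorem natDegree_prodX (s : Finset (ZMod ℓ)) : (prodX ℓ s).natDegree = s.card := by
  unfold prodX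
  rw [natDegree_prod_of_monic _ _ (fun x _ => monic_X_sub_C x)]
  simp

/-- TASK FR-Split (4). a product of distinct linear factors divides `p` if all are roots. -/
theorem prodX_dvd (s : Finset (ZMod ℓ)) (p : (ZMod ℓ)[X]) (h : ∀ x ∈ s, p.eval x = 0) :
    prodX ℓ s ∣ p := by
  unfold prodX
  apply Finset.prod_dvd_of_coprime
  · intro x _ y _ hxy
    exact pairwise_coprime_X_sub_C (s := fun x : ZMod ℓ => x) (fun _ _ h => h) hxy
  · intro x hx
    exact dvd_iff_isRoot.mpr (h x hx)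

/-- TASK FR-Split (5). -/
theorem isCoprime_prodX (s : Finset (ZMod ℓ)) (p : (ZMod ℓ)[X]) (h : ∀ x ∈ s, p.eval x ≠ 0) :
    IsCoprime p (prodX ℓ s) := by
  unfold prodX
  apply IsCoprime.prod_right
  intro x hx
  apply IsCoprime.symm
  rw [(irreducible_X_sub_C x).coprime_iff_not_dvd, dvd_iff_isRoot]
  exact h x hx

/-- TASK FR-Split (6). -/
theorem eval_prodX_eq_zero_iff (s : Finset (ZMod ℓ)) (x : ZMod ℓ) :
    (prodX ℓ s).eval x = 0 ↔ x ∈ s := by
  unfold prodX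
  rw [eval_prod, Finset.prod_eq_zero_iff]
  constructor
  · rintro ⟨y, hy, hxy⟩
    rw [eval_sub, eval_X, eval_C, sub_eq_zero] at hxy
    rw [hxy]; exact hy
  · intro hx
    exact ⟨x, hx, by simp⟩

theorem split_half (hℓ : 5 ≤ ℓ) : (ℓ - 1) / 2 = ℓ / 2 := by
  have hprime : ℓ.Prime := Fact.out
  obtain ⟨r, hr⟩ := hprime.odd_of_ne_two (by omega)
  omega

/-- TASK FR-Split (7). Euler's criterion. -/
theorem pow_half_of_mem_Zp (hℓ : 5 ≤ ℓ) {x : ZMod ℓ} (hx : x ∈ Zp ℓ a b) :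
    (x ^ 3 + a * x + b) ^ ((ℓ - 1) / 2) = 1 := by
  rw [mem_Zp] at hx
  rw [split_half ℓ hℓ]
  exact (ZMod.euler_criterion ℓ hx.1).mp hx.2

/-- TASK FR-Split (8). -/
theorem pow_half_of_mem_Zm (hℓ : 5 ≤ ℓ) {x : ZMod ℓ} (hx : x ∈ Zm ℓ a b) :
    (x ^ 3 + a * x + b) ^ ((ℓ - 1) / 2) = -1 := by
  rw [mem_Zm] at hx
  rw [split_half ℓ hℓ]
  have h0 : x ^ 3 + a * x + b ≠ 0 := by
    intro h0
    apply hx; rw [h0]; exact IsSquare.zero
  rcases ZMod.pow_div_two_eq_neg_one_or_one ℓ h0 with h | h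
  · exact absurd ((ZMod.euler_criterion ℓ h0).mpr h) hx
  · exact h

end Fermat.Agent.S52.CH
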