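import Fermat.Agent.S52.CH.FrobDeg
import Fermat.Agent.S52.CH.FrobSplit

/-!
# S52, chapter CH, task FR-Poly: the reduced fraction representing `φ - 1`.
-/

set_option autoImplicit false
set_option linter.unusedSectionVars false

namespace Fermat.Agent.S52.CH

open Polynomial

variable (ℓ : ℕ) [Fact ℓ.Prime] (a b : ZMod ℓ)

theorem prodX_ne_zero (s : Finset (ZMod ℓ)) : prodX ℓ s ≠ 0 :=
  (monic_prod_of_monic _ _ (fun x _ => monic_X_sub_C x)).ne_zero

/-- TASK FR-Poly.  `f = f₁ * P0` (`prodX_dvd`), `f^((ℓ-1)/2) + 1 = h * Pm` (`prodX_dvd`,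
`pow_half_of_mem_Zm`), `n := f₁ h² - (X^ℓ + X) P0 Pp²`, `d := P0 Pp²`, `e := P0 Pm²`. -/
theorem exists_frob_sub_poly (hℓ : 5 ≤ ℓ) (hΔ : 4 * a ^ 3 + 27 * b ^ 2 ≠ 0) :
    ∃ n d e : (ZMod ℓ)[X], IsCoprime n d ∧ d.degree < n.degree ∧
      n.natDegree = 1 + (Z0 ℓ a b).card + 2 * (Zp ℓ a b).card ∧
      n * e = numF ℓ a b ∧ d * e = (X ^ ℓ - X) ^ 2 := by
  have hprime : ℓ.Prime := Fact.out
  have h2 : (2 : ZMod ℓ) ≠ 0 := by
    have : ((2 : ℕ) : ZMod ℓ) ≠ 0 := by
      rw [Ne, ZMod.natCast_eq_zero_iff]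
      intro h
      have := Nat.le_of_dvd (by norm_num) h
      omega
    exact_mod_cast this
  have hm0 : (ℓ - 1) / 2 ≠ 0 := by omega
  obtain ⟨f1, hf1⟩ : prodX ℓ (Z0 ℓ a b) ∣ fpol ℓ a b :=
    prodX_dvd _ _ _ (fun x hx => by rw [eval_fpol]; exact (mem_Z0 ℓ a b).mp hx)
  obtain ⟨h, hh⟩ : prodX ℓ (Zm ℓ a b) ∣ fpol ℓ a b ^ ((ℓ - 1) / 2) + 1 :=
    prodX_dvd _ _ _ (fun x hx => by
      rw [eval_add, eval_pow, eval_fpol, pow_half_of_mem_Zm ℓ a b hℓ hx, eval_one]; ring)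
  have hQ := X_pow_sub_X_eq ℓ a b
  have hcard := card_Z_add ℓ a b
  have hP0 := prodX_ne_zero ℓ (Z0 ℓ a b)
  have hPp := prodX_ne_zero ℓ (Zp ℓ a b)
  have hPm := prodX_ne_zero ℓ (Zm ℓ a b)
  have dP0 := natDegree_prodX ℓ (Z0 ℓ a b)
  have dPp := natDegree_prodX ℓ (Zp ℓ a b)
  have dPm := natDegree_prodX ℓ (Zm ℓ a b)
  have z0 := eval_prodX_eq_zero_iff ℓ (Z0 ℓ a b)
  have zp := eval_prodX_eq_zero_iff ℓ (Zp ℓ a b)
  have zm := eval_prodX_eq_zero_iff ℓ (Zm ℓ a b)
  have c0 := isCoprime_prodX ℓ (Z0 ℓ a b)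
  have cp := isCoprime_prodX ℓ (Zp ℓ a b)
  set P0 := prodX ℓ (Z0 ℓ a b) with hP0def
  set Pp := prodX ℓ (Zp ℓ a b) with hPpdef
  set Pm := prodX ℓ (Zm ℓ a b) with hPmdef
  have hne : (f1 * h ^ 2 - (X ^ ℓ + X) * P0 * Pp ^ 2) * (P0 * Pm ^ 2) = numF ℓ a b := by
    unfold numF
    rw [hQ, hh, hf1]
    ring
  have hnumdeg := natDegree_numF ℓ a b hℓ
  have hnum0 : numF ℓ a b ≠ 0 := by
    intro h0
    rw [h0, natDegree_zero] at hnumdeg
    omega
  have hn0 : f1 * h ^ 2 - (X ^ ℓ + X) * P0 * Pp ^ 2 ≠ 0 := by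
    intro h0
    apply hnum0
    rw [← hne, h0, zero_mul]
  have he0 : P0 * Pm ^ 2 ≠ 0 := mul_ne_zero hP0 (pow_ne_zero 2 hPm)
  have hedeg : (P0 * Pm ^ 2).natDegree = (Z0 ℓ a b).card + 2 * (Zm ℓ a b).card := by
    rw [natDegree_mul hP0 (pow_ne_zero 2 hPm), natDegree_pow, dP0, dPm]
  have hddeg : (P0 * Pp ^ 2).natDegree = (Z0 ℓ a b).card + 2 * (Zp ℓ a b).card := by
    rw [natDegree_mul hP0 (pow_ne_zero 2 hPp), natDegree_pow, dP0, dPp]
  have hndeg : (f1 * h ^ 2 - (X ^ ℓ + X) * P0 * Pp ^ 2).natDegree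
      = 1 + (Z0 ℓ a b).card + 2 * (Zp ℓ a b).card := by
    have := natDegree_mul hn0 he0
    rw [hne, hnumdeg, hedeg] at this
    omega
  refine ⟨f1 * h ^ 2 - (X ^ ℓ + X) * P0 * Pp ^ 2, P0 * Pp ^ 2, P0 * Pm ^ 2, ?_, ?_, hndeg, hne, ?_⟩
  · -- coprimality
    have evn : ∀ x, (P0.eval x = 0 ∨ Pp.eval x = 0) →
        (f1 * h ^ 2 - (X ^ ℓ + X) * P0 * Pp ^ 2).eval x = f1.eval x * h.eval x ^ 2 := by
      intro x hx
      simp only [eval_sub, eval_mul, eval_pow]
      rcases hx with hx | hx <;> rw [hx] <;> ring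
    refine IsCoprime.mul_right (c0 _ ?_) (IsCoprime.pow_right (cp _ ?_))
    · intro x hx
      rw [evn x (Or.inl ((z0 x).mpr hx))]
      have hfx : x ^ 3 + a * x + b = 0 := (mem_Z0 ℓ a b).mp hx
      have hhx : h.eval x ≠ 0 := by
        intro h0
        have := congrArg (eval x) hh
        rw [eval_add, eval_pow, eval_fpol, hfx, zero_pow hm0, eval_one, eval_mul, h0] at this
        simp at this
      have hf1x : f1.eval x ≠ 0 := by
        intro h0
        have h3 := congrArg (fun p => eval x (derivative p)) hf1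
        simp only [derivative_mul, eval_add, eval_mul, h0, (z0 x).mpr hx] at h3
        have h4 : eval x (derivative (fpol ℓ a b)) = 3 * x ^ 2 + a := by
          simp only [fpol, derivative_add, derivative_X_pow, derivative_mul, derivative_C,
            derivative_X, eval_add, eval_mul, eval_pow, eval_X, eval_C, eval_zero, eval_one]
          simp
        rw [h4] at h3
        apply hΔ
        have hA : a = -3 * x ^ 2 := by linear_combination h3
        have hB : b = 2 * x ^ 3 := by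
          rw [hA] at hfx
          linear_combination hfx
        rw [hA, hB]
        ring
      exact mul_ne_zero hf1x (pow_ne_zero 2 hhx)
    · intro x hx
      rw [evn x (Or.inr ((zp x).mpr hx))]
      have hfx : x ^ 3 + a * x + b ≠ 0 := ((mem_Zp ℓ a b).mp hx).1
      have hhx : h.eval x ≠ 0 := by
        intro h0
        have := congrArg (eval x) hh
        rw [eval_add, eval_pow, eval_fpol, pow_half_of_mem_Zp ℓ a b hℓ hx, eval_one, eval_mul,
          h0, mul_zero] at this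
        apply h2
        linear_combination this
      have hf1x : f1.eval x ≠ 0 := by
        intro h0
        have := congrArg (eval x) hf1
        rw [eval_fpol, eval_mul, h0, mul_zero] at this
        exact hfx this
      exact mul_ne_zero hf1x (pow_ne_zero 2 hhx)
  · apply degree_lt_degree
    rw [hndeg, hddeg]
    omega
  · rw [hQ]; ring

end Fermat.Agent.S52.CH
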