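import Fermat.Agent.S52.CH.Defs

/-!
# S52, chapter CH, task COMP-Hom: homogenisation of a polynomial and substitution of a fraction.

`hom D p a b = ∑_{i ≤ D} p_i a^i b^(D-i)`.
-/

set_option autoImplicit false
set_option linter.unusedSectionVars false

namespace Fermat.Agent.S52.CH

open Polynomial

variable {k : Type*} [Field k]

/-- `b^D p(a/b)`. -/
noncomputable def hom (D : ℕ) (p a b : k[X]) : k[X] :=
  ∑ i ∈ Finset.range (D + 1), C (p.coeff i) * a ^ i * b ^ (D - i)

theorem hom_eval (D : ℕ) (p a b : k[X]) (x : k) :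
    (hom D p a b).eval x
      = ∑ i ∈ Finset.range (D + 1), p.coeff i * a.eval x ^ i * b.eval x ^ (D - i) := by
  unfold hom
  rw [eval_finsetSum]
  refine Finset.sum_congr rfl fun i _ => ?_
  simp

/-- TASK COMP-Hom (1). (`Polynomial.eval_eq_sum_range'`, `Finset.mul_sum`, `field_simp`.) -/
theorem eval_hom_of_ne {D : ℕ} {p a b : k[X]} {x : k} (hp : p.natDegree ≤ D)
    (hb : b.eval x ≠ 0) :
    (hom D p a b).eval x = b.eval x ^ D * p.eval (a.eval x / b.eval x) := by
  rw [hom_eval, eval_eq_sum_range' (Nat.lt_succ_of_le hp), Finset.mul_sum]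
  refine Finset.sum_congr rfl fun i hi => ?_
  have hi' : i ≤ D := Nat.lt_succ_iff.mp (Finset.mem_range.mp hi)
  obtain ⟨j, rfl⟩ := Nat.exists_eq_add_of_le hi'
  rw [Nat.add_sub_cancel_left, pow_add, div_pow]
  field_simp

/-- TASK COMP-Hom (2). -/
theorem eval_hom_of_eq {D : ℕ} {p a b : k[X]} {x : k} (hb : b.eval x = 0) :
    (hom D p a b).eval x = p.coeff D * a.eval x ^ D := by
  rw [hom_eval, Finset.sum_range_succ, Finset.sum_eq_zero, zero_add, Nat.sub_self, pow_zero, mul_one]
  intro i hi
  have hi' : i < D := Finset.mem_range.mp hi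
  rw [hb, zero_pow (Nat.sub_ne_zero_of_lt hi'), mul_zero]

theorem hom_term_lt {D i : ℕ} (c : k) {a b : k[X]} (hab : b.degree < a.degree) (hi : i < D) :
    (C c * a ^ i * b ^ (D - i)).degree < ((D * a.natDegree : ℕ) : WithBot ℕ) := by
  have hj : D - i ≠ 0 := Nat.sub_ne_zero_of_lt hi
  rcases eq_or_ne b 0 with rfl | hb
  · rw [zero_pow hj, mul_zero, degree_zero]
    exact WithBot.bot_lt_coe _
  have hnat : b.natDegree < a.natDegree := natDegree_lt_natDegree hb hab
  refine lt_of_le_of_lt degree_le_natDegree (WithBot.coe_lt_coe.2 ?_)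
  have h1 : (C c * a ^ i * b ^ (D - i)).natDegree ≤ i * a.natDegree + (D - i) * b.natDegree := by
    refine natDegree_mul_le.trans (add_le_add ?_ (natDegree_pow_le))
    exact (natDegree_C_mul_le _ _).trans natDegree_pow_le
  refine lt_of_le_of_lt h1 ?_
  obtain ⟨j, rfl⟩ := Nat.exists_eq_add_of_lt hi
  have e : i + j + 1 - i = j + 1 := by omega
  rw [e]
  have h2 : (j + 1) * b.natDegree < (j + 1) * a.natDegree :=
    Nat.mul_lt_mul_of_pos_left hnat (Nat.succ_pos j)
  calc i * a.natDegree + (j + 1) * b.natDegree < i * a.natDegree + (j + 1) * a.natDegree := by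
        omega
    _ = (i + j + 1) * a.natDegree := by ring

theorem hom_sum_lt {D : ℕ} (p : k[X]) {a b : k[X]} (hab : b.degree < a.degree) :
    (∑ i ∈ Finset.range D, C (p.coeff i) * a ^ i * b ^ (D - i)).degree
      < ((D * a.natDegree : ℕ) : WithBot ℕ) := by
  refine lt_of_le_of_lt (degree_sum_le _ _) ?_
  rw [Finset.sup_lt_iff (WithBot.bot_lt_coe _)]
  intro i hi
  exact hom_term_lt _ hab (Finset.mem_range.mp hi)

/-- TASK COMP-Hom (3). all terms with `i < D` have degree `< D * deg a`. -/
theorem degree_hom_lt {D : ℕ} {p a b : k[X]} (hab : b.degree < a.degree)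
    (hp : p.degree < (D : WithBot ℕ)) :
    (hom D p a b).degree < ((D * a.natDegree : ℕ) : WithBot ℕ) := by
  unfold hom
  rw [Finset.sum_range_succ, coeff_eq_zero_of_degree_lt hp, C_0, zero_mul, zero_mul, add_zero]
  exact hom_sum_lt p hab

/-- TASK COMP-Hom (4). the term `i = D` dominates. -/
theorem degree_hom_eq {D : ℕ} {p a b : k[X]} (hab : b.degree < a.degree)
    (hp : p.degree = (D : WithBot ℕ)) :
    (hom D p a b).degree = ((D * a.natDegree : ℕ) : WithBot ℕ) := by
  have ha : a ≠ 0 := by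
    rintro rfl
    rw [degree_zero] at hab
    exact not_lt_bot hab
  have hp0 : p ≠ 0 := by
    rintro rfl
    rw [degree_zero] at hp
    exact WithBot.bot_ne_coe hp
  have hc : p.coeff D ≠ 0 := by
    have : p.natDegree = D := natDegree_eq_of_degree_eq_some hp
    rw [← this]
    exact leadingCoeff_ne_zero.2 hp0
  have hlast : (C (p.coeff D) * a ^ D * b ^ (D - D)).degree
      = ((D * a.natDegree : ℕ) : WithBot ℕ) := by
    rw [Nat.sub_self, pow_zero, mul_one, degree_C_mul hc, degree_pow, degree_eq_natDegree ha]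
    push_cast
    simp
  unfold hom
  rw [Finset.sum_range_succ, degree_add_eq_right_of_degree_lt, hlast]
  rw [hlast]
  exact hom_sum_lt p hab

end Fermat.Agent.S52.CH
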