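import Fermat.Agent.S52.CH.Defs

/-!
# S52, chapter CH, task LAD-Alg: the algebra behind the ladder step.
-/

set_option autoImplicit false
set_option linter.unusedSectionVars false

namespace Fermat.Agent.S52.CH

open Polynomial WeierstrassCurve Fermat.Agent.S05

/-- TASK LAD-Alg (1).  `n ∣ S d²` so `S = n' n`; then `U n = d (T - n' d)`, so `n ∣ T - n' d`,
`T = n' d + d' n`; then `U n = d d' n`. (`IsCoprime.dvd_of_dvd_mul_right` etc.) -/
theorem factor_of_quadratic {R : Type*} [CommRing R] [IsDomain R] {S T U n d : R}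
    (hc : IsCoprime n d) (hn : n ≠ 0) (h : U * n ^ 2 - T * n * d + S * d ^ 2 = 0) :
    ∃ n' d' : R, S = n' * n ∧ T = n' * d + d' * n ∧ U = d' * d := by
  have h1 : n ∣ S * d ^ 2 := ⟨T * d - U * n, by linear_combination h⟩
  obtain ⟨n', hn'⟩ := (hc.pow_right (n := 2)).dvd_of_dvd_mul_right h1
  have h2 : U * n = d * (T - n' * d) := by
    apply mul_left_cancel₀ hn
    rw [hn'] at h
    linear_combination h
  have h3 : n ∣ d * (T - n' * d) := ⟨U, by rw [← h2]; ring⟩
  obtain ⟨d', hd'⟩ := hc.dvd_of_dvd_mul_left h3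
  refine ⟨n', d', by rw [hn']; ring, by linear_combination hd', ?_⟩
  apply mul_left_cancel₀ hn
  rw [hd'] at h2
  linear_combination h2

variable {k : Type*} [Field k] [DecidableEq k] (W : Affine k)

theorem ladAlg_degree_mul_lt {p q : k[X]} {D E : ℕ} (hp : p.degree ≤ (D : WithBot ℕ))
    (hq : q.degree < (E : WithBot ℕ)) : (p * q).degree < ((D + E : ℕ) : WithBot ℕ) := by
  by_cases hp0 : p = 0
  · rw [hp0, zero_mul, degree_zero]; exact WithBot.bot_lt_coe _
  by_cases hq0 : q = 0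
  · rw [hq0, mul_zero, degree_zero]; exact WithBot.bot_lt_coe _
  rw [degree_mul, degree_eq_natDegree hp0, degree_eq_natDegree hq0]
  rw [degree_eq_natDegree hp0] at hp
  rw [degree_eq_natDegree hq0] at hq
  have hp' : p.natDegree ≤ D := by exact_mod_cast hp
  have hq' : q.natDegree < E := by exact_mod_cast hq
  have : p.natDegree + q.natDegree < D + E := by omega
  exact_mod_cast this

theorem ladAlg_degree_C_mul_mul_lt (c : k) {p q : k[X]} {D E : ℕ}
    (hp : p.degree ≤ (D : WithBot ℕ)) (hq : q.degree < (E : WithBot ℕ)) :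
    (C c * p * q).degree < ((D + E : ℕ) : WithBot ℕ) := by
  refine ladAlg_degree_mul_lt (le_trans (degree_mul_le _ _) ?_) hq
  calc (C c).degree + p.degree ≤ 0 + (D : WithBot ℕ) := add_le_add degree_C_le hp
    _ = D := zero_add _

section

variable {n₁ d₁ n₂ d₂ : k[X]}

theorem ladAlg_s (h₁ : d₁.degree < n₁.degree) (h₂ : d₂.degree < n₂.degree) :
    (n₁ * n₂).degree = ((n₁.natDegree + n₂.natDegree : ℕ) : WithBot ℕ) := by
  have hn₁ : n₁ ≠ 0 := by rintro rfl; rw [degree_zero] at h₁; exact not_lt_bot h₁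
  have hn₂ : n₂ ≠ 0 := by rintro rfl; rw [degree_zero] at h₂; exact not_lt_bot h₂
  rw [degree_mul, degree_eq_natDegree hn₁, degree_eq_natDegree hn₂]
  norm_cast

theorem ladAlg_t (h₁ : d₁.degree < n₁.degree) (h₂ : d₂.degree < n₂.degree) :
    (n₁ * d₂ + d₁ * n₂).degree < ((n₁.natDegree + n₂.natDegree : ℕ) : WithBot ℕ) := by
  have hn₁ : n₁ ≠ 0 := by rintro rfl; rw [degree_zero] at h₁; exact not_lt_bot h₁
  have hn₂ : n₂ ≠ 0 := by rintro rfl; rw [degree_zero] at h₂; exact not_lt_bot h₂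
  rw [degree_eq_natDegree hn₁] at h₁
  rw [degree_eq_natDegree hn₂] at h₂
  refine lt_of_le_of_lt (degree_add_le _ _) (max_lt ?_ ?_)
  · exact ladAlg_degree_mul_lt degree_le_natDegree h₂
  · rw [mul_comm, add_comm]
    exact ladAlg_degree_mul_lt degree_le_natDegree h₁

theorem ladAlg_u (h₁ : d₁.degree < n₁.degree) (h₂ : d₂.degree < n₂.degree) :
    (d₁ * d₂).degree < ((n₁.natDegree + n₂.natDegree : ℕ) : WithBot ℕ) := by
  have hn₁ : n₁ ≠ 0 := by rintro rfl; rw [degree_zero] at h₁; exact not_lt_bot h₁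
  have hn₂ : n₂ ≠ 0 := by rintro rfl; rw [degree_zero] at h₂; exact not_lt_bot h₂
  rw [degree_eq_natDegree hn₁] at h₁
  rw [degree_eq_natDegree hn₂] at h₂
  exact ladAlg_degree_mul_lt h₁.le h₂

end

/-- TASK LAD-Alg (2). the leading term of `polS` is `(n₁ n₂)²`. -/
theorem natDegree_polS {n₁ d₁ n₂ d₂ : k[X]} (h₁ : d₁.degree < n₁.degree)
    (h₂ : d₂.degree < n₂.degree) :
    (polS W (n₁ * n₂) (n₁ * d₂ + d₁ * n₂) (d₁ * d₂)).degree
      = ((2 * (n₁.natDegree + n₂.natDegree) : ℕ) : WithBot ℕ) := by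
  have hs := ladAlg_s h₁ h₂
  have ht := ladAlg_t h₁ h₂
  have hu := ladAlg_u h₁ h₂
  generalize n₁ * n₂ = s at *
  generalize n₁ * d₂ + d₁ * n₂ = t at *
  generalize d₁ * d₂ = u at *
  generalize n₁.natDegree + n₂.natDegree = D at *
  have hss : (s ^ 2).degree = ((2 * D : ℕ) : WithBot ℕ) := by
    rw [degree_pow, hs]; push_cast; simp
  have e1 : (C W.b₄ * s * u).degree < ((2 * D : ℕ) : WithBot ℕ) := by
    rw [two_mul]; exact ladAlg_degree_C_mul_mul_lt _ hs.le hu
  have e2 : (C W.b₆ * t * u).degree < ((2 * D : ℕ) : WithBot ℕ) := by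
    rw [two_mul]; exact ladAlg_degree_C_mul_mul_lt _ ht.le hu
  have e3 : (C W.b₈ * u ^ 2).degree < ((2 * D : ℕ) : WithBot ℕ) := by
    rw [two_mul, pow_two, ← mul_assoc]; exact ladAlg_degree_C_mul_mul_lt _ hu.le hu
  unfold polS
  rw [degree_sub_eq_left_of_degree_lt, degree_sub_eq_left_of_degree_lt,
    degree_sub_eq_left_of_degree_lt, hss]
  · rw [hss]; exact e1
  · rw [degree_sub_eq_left_of_degree_lt, hss]
    · exact e2
    · rw [hss]; exact e1
  · rw [degree_sub_eq_left_of_degree_lt, degree_sub_eq_left_of_degree_lt, hss]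
    · exact e3
    · rw [hss]; exact e1
    · rw [degree_sub_eq_left_of_degree_lt, hss]
      · exact e2
      · rw [hss]; exact e1

/-- TASK LAD-Alg (3). -/
theorem degree_polT_lt {n₁ d₁ n₂ d₂ : k[X]} (h₁ : d₁.degree < n₁.degree)
    (h₂ : d₂.degree < n₂.degree) :
    (polT W (n₁ * n₂) (n₁ * d₂ + d₁ * n₂) (d₁ * d₂)).degree
      < ((2 * (n₁.natDegree + n₂.natDegree) : ℕ) : WithBot ℕ) := by
  have hs := ladAlg_s h₁ h₂
  have ht := ladAlg_t h₁ h₂
  have hu := ladAlg_u h₁ h₂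
  generalize n₁ * n₂ = s at *
  generalize n₁ * d₂ + d₁ * n₂ = t at *
  generalize d₁ * d₂ = u at *
  generalize n₁.natDegree + n₂.natDegree = D at *
  have e0 : (2 * t * s).degree < ((2 * D : ℕ) : WithBot ℕ) := by
    have : (2 * t * s : k[X]) = C 2 * s * t := by rw [map_ofNat]; ring
    rw [this, two_mul]; exact ladAlg_degree_C_mul_mul_lt _ hs.le ht
  have e1 : (C W.b₂ * s * u).degree < ((2 * D : ℕ) : WithBot ℕ) := by
    rw [two_mul]; exact ladAlg_degree_C_mul_mul_lt _ hs.le hu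
  have e2 : (C W.b₄ * t * u).degree < ((2 * D : ℕ) : WithBot ℕ) := by
    rw [two_mul]; exact ladAlg_degree_C_mul_mul_lt _ ht.le hu
  have e3 : (C W.b₆ * u ^ 2).degree < ((2 * D : ℕ) : WithBot ℕ) := by
    rw [two_mul, pow_two, ← mul_assoc]; exact ladAlg_degree_C_mul_mul_lt _ hu.le hu
  unfold polT
  refine lt_of_le_of_lt (degree_add_le _ _) (max_lt ?_ e3)
  refine lt_of_le_of_lt (degree_add_le _ _) (max_lt ?_ e2)
  exact lt_of_le_of_lt (degree_add_le _ _) (max_lt e0 e1)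

end Fermat.Agent.S52.CH
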